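import Fermat.Agent.S19.DIV.Main
import Fermat.Agent.S27.K.K1

/-!
# S17, block DIV: `Pic⁰` of a curve over an algebraically closed field of characteristic `0` is
divisible.

The prime case is block DIV of S19 (`Fermat.Agent.S19.DIV.divisible_of_curveHyp`, Lefschetz principle
on top of the S27 machinery).  Here: the form with the hypotheses of the frozen statements
(`IsCurveOver`, `Algebra.EssFiniteType`), and all `n > 0`.
-/

set_option autoImplicit false

namespace Fermat.Agent.S17.Div

open AlgebraicCurve

universe u v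

/-- `Pic⁰(F)` is `ℓ`-divisible, `ℓ` prime. -/
theorem pic0_divisible (K : Type u) (F : Type v) [Field K] [Field F] [Algebra K F]
    [IsAlgClosed K] [CharZero K] [IsCurveOver K F] [Algebra.EssFiniteType K F]
    (l : ℕ) (hl : l.Prime) (x : Pic0 K F) : ∃ y : Pic0 K F, l • y = x :=
  Fermat.Agent.S19.DIV.divisible_of_curveHyp K F (Fermat.Agent.S27.K.stmtK1 K F) l hl x

/-- `Pic⁰(F)` is `2`-divisible. -/
theorem pic0_two_divisible (K : Type u) (F : Type v) [Field K] [Field F] [Algebra K F]
    [IsAlgClosed K] [CharZero K] [IsCurveOver K F] [Algebra.EssFiniteType K F]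
    (x : Pic0 K F) : ∃ y : Pic0 K F, 2 • y = x :=
  pic0_divisible K F 2 Nat.prime_two x

/-- `Pic⁰(F)` is `n`-divisible for every `n > 0`. -/
theorem pic0_nat_divisible (K : Type u) (F : Type v) [Field K] [Field F] [Algebra K F]
    [IsAlgClosed K] [CharZero K] [IsCurveOver K F] [Algebra.EssFiniteType K F]
    (n : ℕ) (hn : 0 < n) (x : Pic0 K F) : ∃ y : Pic0 K F, n • y = x := by
  induction n using Nat.recOnMul generalizing x with
  | zero => exact absurd hn (lt_irrefl 0)
  | one => exact ⟨x, one_nsmul x⟩
  | prime p hp => exact pic0_divisible K F p hp x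
  | mul a b iha ihb =>
    have ha : 0 < a := Nat.pos_of_mul_pos_right hn |> fun h => by
      rcases Nat.eq_zero_or_pos a with h0 | h0
      · simp [h0] at hn
      · exact h0
    have hb : 0 < b := by
      rcases Nat.eq_zero_or_pos b with h0 | h0
      · simp [h0] at hn
      · exact h0
    obtain ⟨y, hy⟩ := iha ha x
    obtain ⟨z, hz⟩ := ihb hb y
    exact ⟨z, by rw [mul_nsmul', hz, hy]⟩

end Fermat.Agent.S17.Div
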